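import Fermat.Agent.S36.Mod3.Spec
import Fermat.Agent.S36.H250.UniqAbs
import Fermat.Agent.A2.Mod.H378.L11

/-!
# S36 / MOD3 — the leaf UNIQ is a corollary of the leaves VAL, QEP, CHART, NR (helper250)

* `partUniq_of_parts` (generic): `PartVal`, `PartQep`, `PartChart`, `PartNR` (+ `R ⊆ V_i`,
  `q ≠ 0`) ⟹ `PartUniq`.
* `leafUniq_of_leaves : LeafVal → LeafQep → LeafChart → LeafNR → LeafUniq` (concrete objects of
  `Mod3/Spec.lean`; `R ⊆ V_i` from `IsVinf`, Fricke and `mid`).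

So `LeafUniq` needs NO modular input of its own.  Sorry-free; the four leaves are hypotheses.
-/

set_option autoImplicit false
set_option linter.style.haveILetI false
set_option linter.unusedSectionVars false
set_option synthInstance.maxHeartbeats 400000
set_option maxHeartbeats 1600000

noncomputable section

namespace Fermat.Agent.S36.Mod3.H250

open ModularCurve AlgebraicCurve
open Fermat.Agent.S18.H138 (chart)
open Fermat.Agent.S36.Eng Fermat.Agent.S36.Mod3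

section Generic

variable {R E F F' : Type*} [CommRing R] [Field E] [Algebra R E]
  [Field F] [Algebra E F] [Algebra R F] [Field F'] [Algebra E F'] [Algebra R F']
  [IsScalarTower R E F] [IsScalarTower R E F']

theorem qep3_swap {w : R} {B : Subalgebra R F} {V₁ V₂ V₃ : ValuationSubring F}
    (h : Qep3 w B V₁ V₂ V₃) : Qep3 w B V₃ V₂ V₁ :=
  fun b h3 h2 h1 => h b h1 h2 h3

theorem isTriple_swap {B : Subalgebra R F} {𝔪 : Ideal B} {V₁ V₂ V₃ : ValuationSubring F}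
    (h : IsTriple B 𝔪 V₁ V₂ V₃) : IsTriple B 𝔪 V₃ V₂ V₁ :=
  ⟨h.2.2, h.2.1, h.1⟩

/-- **UNIQ from VAL, QEP, CHART, NR** (generic). -/
theorem partUniq_of_parts {w : R} {q : ℕ} (hq : q ≠ 0) {α β : F' →ₐ[E] F} {x : F} {x' : F'}
    {V₁ V₂ V₃ : ValuationSubring F} {V₁' V₂' : ValuationSubring F'}
    (hb₁ : ∀ r : R, algebraMap R F r ∈ V₁) (hb₂ : ∀ r : R, algebraMap R F r ∈ V₂)
    (hb₃ : ∀ r : R, algebraMap R F r ∈ V₃)
    (hVal : PartVal w q x V₁ V₂ V₃) (hQep : PartQep w x V₁ V₂ V₃)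
    (hCh : PartChart R α β x x' V₁ V₂ V₃) (hNR : PartNR q α β V₁ V₂ V₃ V₁' V₂') :
    PartUniq R α β x x' V₁ V₂ V₃ := by
  have hB₁ : ∀ b ∈ chart R ({x} : Set F), b ∈ V₁ := fun b hb =>
    H250.mem_valuationSubring_of_mem_chart V₁ hb₁
      (fun s hs => by rw [Set.mem_singleton_iff.mp hs]; exact hVal.x_unit₁.2.1) hb
  have hB₂ : ∀ b ∈ chart R ({x} : Set F), b ∈ V₂ := fun b hb =>
    H250.mem_valuationSubring_of_mem_chart V₂ hb₂
      (fun s hs => by rw [Set.mem_singleton_iff.mp hs]; exact hVal.x_unit₂.2.1) hb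
  have hB₃ : ∀ b ∈ chart R ({x} : Set F), b ∈ V₃ := fun b hb =>
    H250.mem_valuationSubring_of_mem_chart V₃ hb₃
      (fun s hs => by rw [Set.mem_singleton_iff.mp hs]; exact hVal.x_unit₃.2.1) hb
  refine ⟨?_, ?_⟩
  · intro hα 𝔪 𝔪' h𝔪 h𝔪' htri hover
    exact H250.unique_of_res hq hB₁ hB₂ hB₃ hVal.unif₁ hVal.unif₃ hVal.ram₂ hQep.qep_f hα
      hCh.int_α hCh.res_α₁ hCh.res_α₂ hNR.nr_α₂ 𝔪 𝔪' h𝔪 h𝔪' htri hover
  · intro hβ 𝔪 𝔪' h𝔪 h𝔪' htri hover
    exact H250.unique_of_res hq hB₃ hB₂ hB₁ hVal.unif₃ hVal.unif₁ hVal.ram₂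
      (qep3_swap hQep.qep_f) hβ hCh.int_β hCh.res_β₃ hCh.res_β₂ hNR.nr_β₂ 𝔪 𝔪' h𝔪 h𝔪'
      (isTriple_swap htri) hover

end Generic

section Concrete

variable {P : ValuationSubring A2.Qb} {E : IntermediateField ℚ A2.Qb} {M q : ℕ}
  [NeZero M] [NeZero q] [NeZero (M * q)]

/-- `R_E ⊆ V∞`. -/
theorem base_vinf {N : ℕ} {V : ValuationSubring (A2.Mod.FE E N)} (hV : A2.Mod.IsVinf P E N V)
    (r : A2.RE P E) : algebraMap (A2.RE P E) (A2.Mod.FE E N) r ∈ V :=
  A2.Mod.H378.cE_mem hV r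

/-- **LeafUniq from LeafVal, LeafQep, LeafChart, LeafNR.** -/
theorem leafUniq_of_leaves (hVal : LeafVal) (hQep : LeafQep) (hCh : LeafChart) (hNR : LeafNR) :
    LeafUniq := by
  intro P E M q _ _ _ w hS V₁' V₂' V₁ V₂ V₃ W' W hO
  have hb₁' : ∀ r : A2.RE P E,
      algebraMap (A2.RE P E) (A2.Mod.FE E (M * q)) r ∈ V₁' := base_vinf hO.vinf'
  have hb₁ : ∀ r : A2.RE P E,
      algebraMap (A2.RE P E) (A2.Mod.FE E (M * q * q)) r ∈ V₁ := base_vinf hO.vinf
  have hb₃ : ∀ r : A2.RE P E,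
      algebraMap (A2.RE P E) (A2.Mod.FE E (M * q * q)) r ∈ V₃ := by
    intro r
    rw [hO.vzero, ValuationSubring.mem_comap]
    have : (W : A2.Mod.FE E (M * q * q) →+* A2.Mod.FE E (M * q * q))
        (algebraMap (A2.RE P E) (A2.Mod.FE E (M * q * q)) r)
        = algebraMap (A2.RE P E) (A2.Mod.FE E (M * q * q)) r := by
      rw [IsScalarTower.algebraMap_apply (A2.RE P E) E (A2.Mod.FE E (M * q * q))]
      exact W.commutes _
    rw [this]
    exact hb₁ r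
  have hb₂ : ∀ r : A2.RE P E,
      algebraMap (A2.RE P E) (A2.Mod.FE E (M * q * q)) r ∈ V₂ := by
    intro r
    have h1 : algebraMap (A2.RE P E) (A2.Mod.FE E (M * q)) r ∈
        V₂.comap (A2.Mod.αE E (M * q) q :
          A2.Mod.FE E (M * q) →+* A2.Mod.FE E (M * q * q)) := by
      rw [hO.mid]
      exact hb₁' r
    rw [ValuationSubring.mem_comap] at h1
    have : (A2.Mod.αE E (M * q) q : A2.Mod.FE E (M * q) →+* A2.Mod.FE E (M * q * q))
        (algebraMap (A2.RE P E) (A2.Mod.FE E (M * q)) r)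
        = algebraMap (A2.RE P E) (A2.Mod.FE E (M * q * q)) r := by
      rw [IsScalarTower.algebraMap_apply (A2.RE P E) E (A2.Mod.FE E (M * q)),
        IsScalarTower.algebraMap_apply (A2.RE P E) E (A2.Mod.FE E (M * q * q))]
      exact (A2.Mod.αE E (M * q) q).commutes _
    rw [this] at h1
    exact h1
  exact partUniq_of_parts hS.q_prime.ne_zero hb₁ hb₂ hb₃
    (hVal P E M q w hS V₁' V₂' V₁ V₂ V₃ W' W hO) (hQep P E M q w hS V₁' V₂' V₁ V₂ V₃ W' W hO)
    (hCh P E M q w hS V₁' V₂' V₁ V₂ V₃ W' W hO) (hNR P E M q w hS V₁' V₂' V₁ V₂ V₃ W' W hO)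

end Concrete

end Fermat.Agent.S36.Mod3.H250

end
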